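import Fermat.Agent.H63.LR.Maps
import Fermat.Agent.H21.Coh.Trace

/-!
# P-SS2 / SS2-J1 PUSH-PAR, core (helper51)

The transfer (push-forward `pushHom`) along a trace-preserving homomorphism
`j : Γ₀(M) →* Γ₀(N)` preserves parabolic homomorphisms.  Applied to the two degeneracy
homomorphisms `incl N q`, `conjD N q : Γ₀(N q) →* Γ₀(N)`.
-/

set_option autoImplicit false

open CongruenceSubgroup Matrix.SpecialLinearGroup ModularCurve.Period
open scoped MatrixGroups

namespace Fermat.Agent.H51.SS2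

open Fermat.Agent.H63.LR

/-- Conjugation inside `SL(2, ℤ)` preserves the trace. -/
theorem pp_trace_conj (x g : SL(2, ℤ)) :
    ((x⁻¹ * g * x : SL(2, ℤ)) : Matrix (Fin 2) (Fin 2) ℤ).trace
      = (g : Matrix (Fin 2) (Fin 2) ℤ).trace := by
  rw [Matrix.SpecialLinearGroup.coe_mul, Matrix.trace_mul_comm,
    ← Matrix.SpecialLinearGroup.coe_mul]
  have : x * (x⁻¹ * g) = g := by group
  rw [this]

/-- The transfer along a trace-preserving homomorphism between `Γ₀`-groups preserves parabolic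
homomorphisms. -/
theorem pp_pushHom_isParabolicHom {N M : ℕ} (j : Gamma0 M →* Gamma0 N)
    (htr : ∀ γ : Gamma0 M,
      (((j γ : Gamma0 N) : SL(2, ℤ)) : Matrix (Fin 2) (Fin 2) ℤ).trace
        = ((γ : SL(2, ℤ)) : Matrix (Fin 2) (Fin 2) ℤ).trace)
    (A : Type*) [AddCommGroup A] (ψ : Additive ↥(Gamma0 M) →+ A)
    (hψ : IsParabolicHom (Gamma0 M) ψ) :
    IsParabolicHom (Gamma0 N) (pushHom j A ψ) := by
  classical
  intro γ hγ
  unfold pushHom
  split_ifs with h
  · haveI := h.2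
    have : Fintype (Quotient (MulAction.orbitRel (Subgroup.zpowers γ) (↥(Gamma0 N) ⧸ j.range))) :=
      Fintype.ofFinite _
    show Multiplicative.toAdd (MonoidHom.transfer (onRange j h.1 A ψ) γ) = 0
    rw [MonoidHom.transfer_eq_prod_quotient_orbitRel_zpowers_quot]
    have key : ∀ c : Quotient (MulAction.orbitRel (Subgroup.zpowers γ) (↥(Gamma0 N) ⧸ j.range)),
        onRange j h.1 A ψ
          ⟨c.out.out⁻¹ * γ ^ Function.minimalPeriod (γ • ·) c.out * c.out.out,
            QuotientGroup.out_conj_pow_minimalPeriod_mem j.range γ c.out⟩ = 1 := by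
      intro c
      set n := Function.minimalPeriod (γ • ·) c.out with hn
      set x : ↥(Gamma0 N) := c.out.out with hx
      set y : j.range := ⟨x⁻¹ * γ ^ n * x,
        QuotientGroup.out_conj_pow_minimalPeriod_mem j.range γ c.out⟩ with hy
      set γ' : ↥(Gamma0 M) := (MonoidHom.ofInjective h.1).symm y with hγ'
      have hj : j γ' = (y : ↥(Gamma0 N)) := by
        have := (MonoidHom.ofInjective h.1).apply_symm_apply y
        exact congrArg Subtype.val this
      have htrγ' : ((γ' : SL(2, ℤ)) : Matrix (Fin 2) (Fin 2) ℤ).trace ^ 2 = 4 := by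
        rw [← htr γ', hj]
        show (((x⁻¹ * γ ^ n * x : ↥(Gamma0 N)) : SL(2, ℤ)) : Matrix (Fin 2) (Fin 2) ℤ).trace ^ 2
          = 4
        have e : ((x⁻¹ * γ ^ n * x : ↥(Gamma0 N)) : SL(2, ℤ))
            = (x : SL(2, ℤ))⁻¹ * (γ : SL(2, ℤ)) ^ n * (x : SL(2, ℤ)) := by
          simp only [Subgroup.coe_mul, Subgroup.coe_inv, Subgroup.coe_pow]
        rw [e, pp_trace_conj]
        exact Fermat.Agent.H21.sl_trace_pow_sq (γ : SL(2, ℤ)) hγ n
      have h0 := hψ γ' htrγ'
      show Multiplicative.ofAdd (ψ (Additive.ofMul γ')) = 1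
      rw [h0]
      rfl
    rw [Finset.prod_eq_one (fun c _ => key c)]
    rfl
  · rfl

theorem pp_incl_trace (N q : ℕ) (γ : Gamma0 (N * q)) :
    (((incl N q γ : Gamma0 N) : SL(2, ℤ)) : Matrix (Fin 2) (Fin 2) ℤ).trace
      = ((γ : SL(2, ℤ)) : Matrix (Fin 2) (Fin 2) ℤ).trace := rfl

theorem pp_conjD_trace (N q : ℕ) (γ : Gamma0 (N * q)) :
    (((conjD N q γ : Gamma0 N) : SL(2, ℤ)) : Matrix (Fin 2) (Fin 2) ℤ).trace
      = ((γ : SL(2, ℤ)) : Matrix (Fin 2) (Fin 2) ℤ).trace := by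
  rw [conjD_coe]
  simp [conjDMat, Matrix.trace_fin_two]

/-- **PUSH-PAR**, unbundled. -/
theorem pp_pushParabolic (N q : ℕ) (A : Type*) [AddCommGroup A]
    (ψ : Additive ↥(Gamma0 (N * q)) →+ A) (hψ : IsParabolicHom (Gamma0 (N * q)) ψ) :
    IsParabolicHom (Gamma0 N) (pushHom (incl N q) A ψ) ∧
      IsParabolicHom (Gamma0 N) (pushHom (conjD N q) A ψ) :=
  ⟨pp_pushHom_isParabolicHom (incl N q) (pp_incl_trace N q) A ψ hψ,
    pp_pushHom_isParabolicHom (conjD N q) (pp_conjD_trace N q) A ψ hψ⟩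

end Fermat.Agent.H51.SS2
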