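import Fermat.Agent.H52.SS.JInterfaces
import Fermat.Agent.H51.SS2.PushParCore

/-!
# P-SS2 / SS2-J1 PUSH-PAR (row 1052, helper51)

`pushParabolic : Fermat.Agent.H52.SS.PushParabolicStatement` : the transfers along the two
degeneracy homomorphisms `Γ₀(N q) → Γ₀(N)` preserve parabolic classes.
-/

set_option autoImplicit false

namespace Fermat.Agent.H51.SS2

/-- **(J1) PUSH-PAR.** -/
theorem pushParabolic : Fermat.Agent.H52.SS.PushParabolicStatement := by
  intro N q _ _ A _ ψ hψ
  exact pp_pushParabolic N q A ψ hψ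

end Fermat.Agent.H51.SS2
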